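/-
S25: frames of invertible sheaves of modules, morphisms given on frames, sections and pullback.
-/
import Fermat.Prelude.Def_AlgebraicGeometry_RelativePicardFunctor

set_option autoImplicit false

noncomputable section

universe u

open CategoryTheory CategoryTheory.Limits AlgebraicGeometry TopologicalSpace Opposite

namespace Fermat.Agent.Jac.Shf

variable {X : Scheme.{u}}

/-- Restriction of functions. -/
def resO {U V : X.Opens} (h : V ≤ U) : Γ(X, U) →+* Γ(X, V) := (X.presheaf.map (homOfLE h).op).hom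

/-- Restriction of sections. -/
def resM (M : X.Modules) {U V : X.Opens} (h : V ≤ U) : Γ(M, U) →+ Γ(M, V) :=
  (M.presheaf.map (homOfLE h).op).hom

@[simp]
theorem resO_self {U : X.Opens} (h : U ≤ U) (r : Γ(X, U)) : resO h r = r := by
  change (X.presheaf.map (𝟙 (op U))).hom r = r
  simp

@[simp]
theorem resM_self (M : X.Modules) {U : X.Opens} (h : U ≤ U) (x : Γ(M, U)) : resM M h x = x := by
  change (M.presheaf.map (𝟙 (op U))).hom x = x
  simp

@[simp]
theorem resO_resO {U V W : X.Opens} (h : V ≤ U) (h' : W ≤ V) (r : Γ(X, U)) :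
    resO h' (resO h r) = resO (h'.trans h) r := by
  change (X.presheaf.map _ ≫ X.presheaf.map _).hom r = _
  rw [← X.presheaf.map_comp]
  rfl

@[simp]
theorem resM_resM (M : X.Modules) {U V W : X.Opens} (h : V ≤ U) (h' : W ≤ V) (x : Γ(M, U)) :
    resM M h' (resM M h x) = resM M (h'.trans h) x := by
  change (M.presheaf.map _ ≫ M.presheaf.map _).hom x = _
  rw [← M.presheaf.map_comp]
  rfl

@[simp]
theorem resM_smul (M : X.Modules) {U V : X.Opens} (h : V ≤ U) (r : Γ(X, U)) (x : Γ(M, U)) :
    resM M h (r • x) = resO h r • resM M h x :=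
  M.map_smul _ r x

@[simp]
theorem app_resM {M N : X.Modules} (φ : M ⟶ N) {U V : X.Opens} (h : V ≤ U) (x : Γ(M, U)) :
    φ.app V (resM M h x) = resM N h (φ.app U x) :=
  congr($(φ.mapPresheaf.naturality (homOfLE h).op) x)

@[simp]
theorem app_hom_inv {M N : X.Modules} (φ : M ≅ N) (V : X.Opens) (x : Γ(M, V)) :
    φ.inv.app V (φ.hom.app V x) = x :=
  congr(($(φ.hom_inv_id)).app V x)

@[simp]
theorem app_inv_hom {M N : X.Modules} (φ : M ≅ N) (V : X.Opens) (x : Γ(N, V)) :
    φ.hom.app V (φ.inv.app V x) = x :=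
  congr(($(φ.inv_hom_id)).app V x)

/-- Sections are determined locally. -/
theorem ext_sections (M : X.Modules) {ι : Type*} {V : X.Opens} (U : ι → X.Opens)
    (hU : ∀ i, U i ≤ V) (hcov : ∀ x ∈ V, ∃ i, x ∈ U i) {s t : Γ(M, V)}
    (h : ∀ i, resM M (hU i) s = resM M (hU i) t) : s = t := by
  refine TopCat.Sheaf.eq_of_locally_eq' ⟨M.presheaf, M.isSheaf⟩
    (fun j : ULift.{u} (Set.range U) => (j.down : X.Opens)) V (fun j => homOfLE ?_) ?_ s t ?_
  · obtain ⟨i, hi⟩ := j.down.2
    exact hi ▸ hU i
  · intro x hx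
    obtain ⟨i, hi⟩ := hcov x hx
    exact Opens.mem_iSup.mpr ⟨⟨U i, i, rfl⟩, hi⟩
  · rintro ⟨_, i, rfl⟩
    exact h i

/-- Compatible sections glue. -/
theorem exists_glue_sections (M : X.Modules) {ι : Type*} {V : X.Opens} (U : ι → X.Opens)
    (hU : ∀ i, U i ≤ V) (hcov : ∀ x ∈ V, ∃ i, x ∈ U i) (s : ∀ i, Γ(M, U i))
    (hs : ∀ i j, resM M (inf_le_left : U i ⊓ U j ≤ U i) (s i) = resM M inf_le_right (s j)) :
    ∃ t : Γ(M, V), ∀ i, resM M (hU i) t = s i := by
  classical
  let J := ULift.{u} (Set.range U)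
  let pick : J → ι := fun j => j.down.2.choose
  have hpick : ∀ j : J, U (pick j) = (j.down : X.Opens) := fun j => j.down.2.choose_spec
  let s' : ∀ j : J, Γ(M, (j.down : X.Opens)) := fun j => resM M (hpick j).ge (s (pick j))
  have key : ∀ (i i' : ι) (W : X.Opens) (h : W ≤ U i) (h' : W ≤ U i'),
      resM M h (s i) = resM M h' (s i') := fun i i' W h h' => by
    have := congrArg (resM M (le_inf h h')) (hs i i')
    simpa only [resM_resM] using this
  obtain ⟨t, ht, -⟩ := TopCat.Sheaf.existsUnique_gluing' ⟨M.presheaf, M.isSheaf⟩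
    (fun j : J => (j.down : X.Opens)) V
    (fun j => homOfLE ((hpick j).ge.trans (hU _)))
    (fun x hx => by
      obtain ⟨i, hi⟩ := hcov x hx
      exact Opens.mem_iSup.mpr ⟨⟨U i, i, rfl⟩, hi⟩) s' (fun j j' => by
      change resM M inf_le_left (s' j) = resM M inf_le_right (s' j')
      simp only [s', resM_resM]
      exact key _ _ _ _ _)
  refine ⟨t, fun i => ?_⟩
  have := ht ⟨U i, i, rfl⟩
  change resM M _ t = s' _ at this
  rw [this]
  simpa only [s', resM_self] using key _ i (U i) (hpick ⟨U i, i, rfl⟩).ge le_rfl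

/-- A frame: a section freely generating the module on every smaller open set. -/
def IsFrame (M : X.Modules) {U : X.Opens} (e : Γ(M, U)) : Prop :=
  ∀ (V : X.Opens) (h : V ≤ U), Function.Bijective (fun r : Γ(X, V) => r • resM M h e)

namespace IsFrame

variable {M N : X.Modules} {U : X.Opens} {e : Γ(M, U)}

theorem res (he : IsFrame M e) {V : X.Opens} (h : V ≤ U) : IsFrame M (resM M h e) := by
  intro W hW
  simpa only [resM_resM] using he W (hW.trans h)

theorem smul_cancel (he : IsFrame M e) {V : X.Opens} (h : V ≤ U) {r r' : Γ(X, V)}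
    (hr : r • resM M h e = r' • resM M h e) : r = r' :=
  (he V h).1 hr

/-- The coefficient of a section in a frame. -/
def coeff (he : IsFrame M e) {V : X.Opens} (h : V ≤ U) (x : Γ(M, V)) : Γ(X, V) :=
  ((he V h).2 x).choose

theorem coeff_spec (he : IsFrame M e) {V : X.Opens} (h : V ≤ U) (x : Γ(M, V)) :
    he.coeff h x • resM M h e = x :=
  ((he V h).2 x).choose_spec

theorem coeff_eq (he : IsFrame M e) {V : X.Opens} (h : V ≤ U) {x : Γ(M, V)} {r : Γ(X, V)}
    (hr : r • resM M h e = x) : he.coeff h x = r :=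
  he.smul_cancel h ((he.coeff_spec h x).trans hr.symm)

theorem resO_coeff (he : IsFrame M e) {V W : X.Opens} (h : V ≤ U) (h' : W ≤ V) (x : Γ(M, V)) :
    resO h' (he.coeff h x) = he.coeff (h'.trans h) (resM M h' x) :=
  (he.coeff_eq _ (by
    rw [← resM_resM M h h', ← resM_smul, he.coeff_spec])).symm

theorem smul_unit (he : IsFrame M e) {a : Γ(X, U)} (ha : IsUnit a) : IsFrame M (a • e) := by
  intro V h
  obtain ⟨a, rfl⟩ := ha
  have : (fun r : Γ(X, V) => r • resM M h ((a : Γ(X, U)) • e)) =
      (fun r => r • resM M h e) ∘ (fun r => r * resO h (a : Γ(X, U))) := by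
    funext r
    simp [mul_smul]
  rw [this]
  exact (he V h).comp (((a.isUnit.map (resO h)).unit.mulRight).bijective)

/-- Frames may be recognised locally. -/
theorem of_cover {ι : Type*} (W : ι → X.Opens) (hW : ∀ i, W i ≤ U) (hcov : ∀ x ∈ U, ∃ i, x ∈ W i)
    (h : ∀ i, IsFrame M (resM M (hW i) e)) : IsFrame M e := by
  intro V hV
  have hcV : ∀ x ∈ V, ∃ i, x ∈ V ⊓ W i := fun x hx =>
    (hcov x (hV hx)).imp fun i hi => ⟨hx, hi⟩
  have hb : ∀ i (V' : X.Opens) (h' : V' ≤ W i),
      Function.Bijective (fun r : Γ(X, V') => r • resM M (h'.trans (hW i)) e) := fun i V' h' => by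
    simpa only [resM_resM] using h i V' h'
  refine ⟨fun r r' hr => ?_, fun x => ?_⟩
  · refine X.sheaf.eq_of_locally_eq' (fun j : ULift.{u} (Set.range fun i => V ⊓ W i) =>
      (j.down : X.Opens)) V (fun j => homOfLE ?_) (fun y hy => ?_) r r' ?_
    · obtain ⟨i, hi⟩ := j.down.2
      exact hi ▸ inf_le_left
    · obtain ⟨i, hi⟩ := hcV y hy
      exact Opens.mem_iSup.mpr ⟨⟨V ⊓ W i, i, rfl⟩, hi⟩
    · rintro ⟨_, i, rfl⟩
      refine (hb i (V ⊓ W i) inf_le_right).1 ?_
      change resO inf_le_left r • _ = resO inf_le_left r' • _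
      have := congrArg (resM M (inf_le_left : V ⊓ W i ≤ V)) hr
      simpa only [resM_smul, resM_resM] using this
  · choose r hr using fun i => (hb i (V ⊓ W i) inf_le_right).2 (resM M inf_le_left x)
    obtain ⟨t, ht⟩ := exists_glue_sections (SheafOfModules.unit X.ringCatSheaf)
      (fun i => V ⊓ W i) (fun _ => inf_le_left) hcV r (fun i j => by
        refine (hb i _ (inf_le_left.trans inf_le_right)).1 ?_
        change resO _ (r i) • _ = resO _ (r j) • _
        have e₁ := congrArg (resM M (inf_le_left : (V ⊓ W i) ⊓ (V ⊓ W j) ≤ V ⊓ W i)) (hr i)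
        have e₂ := congrArg (resM M (inf_le_right : (V ⊓ W i) ⊓ (V ⊓ W j) ≤ V ⊓ W j)) (hr j)
        simp only [resM_smul, resM_resM] at e₁ e₂
        exact e₁.trans e₂.symm)
    refine ⟨t, ext_sections M (fun i => V ⊓ W i) (fun _ => inf_le_left) hcV fun i => ?_⟩
    simp only [resM_smul, resM_resM]
    rw [show resO inf_le_left t = r i from ht i]
    exact hr i

/-- Images of frames under isomorphisms. -/
theorem map (he : IsFrame M e) (φ : M ≅ N) : IsFrame N (φ.hom.app U e) := by
  intro V h
  have : (fun r : Γ(X, V) => r • resM N h (φ.hom.app U e)) =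
      (φ.hom.app V) ∘ (fun r => r • resM M h e) := by
    funext r
    simp
  rw [this]
  exact (ConcreteCategory.bijective_of_isIso (φ.hom.app V)).comp (he V h)

end IsFrame

theorem isFrame_one (U : X.Opens) :
    IsFrame (SheafOfModules.unit X.ringCatSheaf : X.Modules) (U := U) (1 : Γ(X, U)) := by
  intro V h
  have : (fun r : Γ(X, V) => r • resM (SheafOfModules.unit X.ringCatSheaf : X.Modules) h
      (1 : Γ(X, U))) = id := by
    funext r
    change r * resO h 1 = r
    simp
  rw [this]
  exact Function.bijective_id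

section Hom

variable {M N : X.Modules} {ι : Type*} {U : ι → X.Opens} (hU : ∀ x : X, ∃ i, x ∈ U i)
  {e : ∀ i, Γ(M, U i)} (he : ∀ i, IsFrame M (e i)) (s : ∀ i, Γ(N, U i))

include hU he in
/-- Morphisms agreeing on frames are equal. -/
theorem hom_ext_frames {φ ψ : M ⟶ N} (h : ∀ i, φ.app (U i) (e i) = ψ.app (U i) (e i)) : φ = ψ := by
  refine Scheme.Modules.hom_ext _ _ fun V => AddCommGrpCat.ext fun x => ?_
  refine ext_sections N (fun i => V ⊓ U i) (fun _ => inf_le_left)
    (fun y hy => (hU y).imp fun i hi => ⟨hy, hi⟩) fun i => ?_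
  rw [← app_resM, ← app_resM,
    ← (he i).coeff_spec inf_le_right (resM M (inf_le_left : V ⊓ U i ≤ V) x)]
  simp [h i]

variable (hs : ∀ (i j : ι) (r : Γ(X, U i ⊓ U j)),
  resM M inf_le_left (e i) = r • resM M inf_le_right (e j) →
    resM N inf_le_left (s i) = r • resM N inf_le_right (s j))

include hs in
theorem exists_app_value (V : X.Opens) (hV : ∀ y ∈ V, ∃ i, y ∈ U i) (x : Γ(M, V)) :
    ∃! t : Γ(N, V), ∀ i, resM N (inf_le_left : V ⊓ U i ≤ V) t =
      (he i).coeff inf_le_right (resM M inf_le_left x) • resM N inf_le_right (s i) := by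
  have hcV : ∀ y ∈ V, ∃ i, y ∈ V ⊓ U i := fun y hy => (hV y hy).imp fun i hi => ⟨hy, hi⟩
  obtain ⟨t, ht⟩ := exists_glue_sections N (fun i => V ⊓ U i) (fun _ => inf_le_left) hcV
    (fun i => (he i).coeff inf_le_right (resM M inf_le_left x) • resM N inf_le_right (s i))
    (fun i j => by
      simp only [resM_smul, resM_resM, IsFrame.resO_coeff]
      set W := (V ⊓ U i) ⊓ (V ⊓ U j) with hW
      have hi : W ≤ U i := inf_le_left.trans inf_le_right
      have hj : W ≤ U j := inf_le_right.trans inf_le_right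
      set r := (he j).coeff inf_le_right (resM M (inf_le_left : U i ⊓ U j ≤ U i) (e i))
      have hr : resM M inf_le_left (e i) = r • resM M inf_le_right (e j) :=
        ((he j).coeff_spec _ _).symm
      have h₁ := congrArg (resM N (le_inf hi hj)) (hs i j r hr)
      simp only [resM_smul, resM_resM] at h₁
      have h₂ := congrArg (resM M (le_inf hi hj)) hr
      simp only [resM_smul, resM_resM] at h₂
      rw [h₁, ← mul_smul]
      congr 1
      refine ((he j).coeff_eq hj ?_).symm
      rw [mul_smul, ← h₂, (he i).coeff_spec])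
  exact ⟨t, ht, fun t' ht' => ext_sections N (fun i => V ⊓ U i) (fun _ => inf_le_left) hcV
    fun i => (ht' i).trans (ht i).symm⟩

/-- The value of the morphism on a section. -/
def appValue (V : X.Opens) (x : Γ(M, V)) : Γ(N, V) :=
  (exists_app_value he s hs V (fun y _ => hU y) x).choose

theorem appValue_spec (V : X.Opens) (x : Γ(M, V)) (i : ι) :
    resM N (inf_le_left : V ⊓ U i ≤ V) (appValue hU he s hs V x) =
      (he i).coeff inf_le_right (resM M inf_le_left x) • resM N inf_le_right (s i) :=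
  (exists_app_value he s hs V (fun y _ => hU y) x).choose_spec.1 i

theorem appValue_eq {V : X.Opens} {x : Γ(M, V)} {t : Γ(N, V)}
    (h : ∀ i, resM N (inf_le_left : V ⊓ U i ≤ V) t =
      (he i).coeff inf_le_right (resM M inf_le_left x) • resM N inf_le_right (s i)) :
    appValue hU he s hs V x = t :=
  ((exists_app_value he s hs V (fun y _ => hU y) x).choose_spec.2 t h).symm

/-- The morphism with prescribed values on frames. -/
def homOfFrames : M ⟶ N :=
  SheafOfModules.Hom.mk <| PresheafOfModules.homMk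
    { app := fun V => AddCommGrpCat.ofHom <| AddMonoidHom.mk' (appValue hU he s hs V.unop)
        fun (x y : Γ(M, V.unop)) => appValue_eq hU he s hs fun i => by
          erw [map_add (resM N _), appValue_spec, appValue_spec, ← add_smul]
          congr 1
          refine ((he i).coeff_eq _ ?_).symm
          rw [add_smul, (he i).coeff_spec, (he i).coeff_spec]
          exact (map_add (resM M _) x y).symm
      naturality := fun V W f => AddCommGrpCat.ext fun x => by
        change appValue hU he s hs W.unop (resM M (leOfHom f.unop) x) =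
          resM N (leOfHom f.unop) (appValue hU he s hs V.unop x)
        refine appValue_eq hU he s hs fun i => ?_
        have h := congrArg (resM N (inf_le_inf_right (U i) (leOfHom f.unop)))
          (appValue_spec hU he s hs V.unop x i)
        simp only [resM_smul, resM_resM, IsFrame.resO_coeff] at h
        simp only [resM_resM]
        exact h }
    fun V (r : Γ(X, V.unop)) (x : Γ(M, V.unop)) => by
      change appValue hU he s hs V.unop (r • x) = r • appValue hU he s hs V.unop x
      refine appValue_eq hU he s hs fun i => ?_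
      rw [resM_smul, appValue_spec, ← mul_smul]
      congr 1
      refine ((he i).coeff_eq _ ?_).symm
      rw [mul_smul, (he i).coeff_spec, resM_smul]

theorem homOfFrames_app (i : ι) : (homOfFrames hU he s hs).app (U i) (e i) = s i := by
  change appValue hU he s hs (U i) (e i) = s i
  refine appValue_eq hU he s hs fun j => ?_
  exact hs i j _ ((he j).coeff_spec inf_le_right _).symm

end Hom

/-- Isomorphism from matching frames. -/
theorem nonempty_iso_of_frames {M N : X.Modules} {ι : Type*} {U : ι → X.Opens}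
    (hU : ∀ x : X, ∃ i, x ∈ U i) {e : ∀ i, Γ(M, U i)} (he : ∀ i, IsFrame M (e i))
    {s : ∀ i, Γ(N, U i)} (hse : ∀ i, IsFrame N (s i))
    (hs : ∀ (i j : ι) (r : Γ(X, U i ⊓ U j)),
      resM M inf_le_left (e i) = r • resM M inf_le_right (e j) →
        resM N inf_le_left (s i) = r • resM N inf_le_right (s j)) :
    ∃ φ : M ≅ N, ∀ i, φ.hom.app (U i) (e i) = s i := by
  have hs' : ∀ (i j : ι) (r : Γ(X, U i ⊓ U j)),
      resM N inf_le_left (s i) = r • resM N inf_le_right (s j) →
        resM M inf_le_left (e i) = r • resM M inf_le_right (e j) := fun i j r hr => by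
    obtain ⟨r', hr'⟩ := ((he j) _ inf_le_right).2 (resM M (inf_le_left : U i ⊓ U j ≤ U i) (e i))
    have := (hse j).smul_cancel _ ((hs i j r' hr'.symm).symm.trans hr)
    rw [← this]
    exact hr'.symm
  refine ⟨⟨homOfFrames hU he s hs, homOfFrames hU hse e hs', ?_, ?_⟩, homOfFrames_app hU he s hs⟩
  · refine hom_ext_frames hU he fun i => ?_
    simp [homOfFrames_app]
  · refine hom_ext_frames hU hse fun i => ?_
    simp [homOfFrames_app]

section Restrict

variable {Y : Scheme.{u}} (j : X ⟶ Y) [IsOpenImmersion j] (M : Y.Modules)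

theorem resM_restrict {U V : X.Opens} (h : V ≤ U) (x : Γ(M, j ''ᵁ U)) :
    resM (M.restrict j) h x = resM M (Scheme.Hom.image_mono _ h) x := rfl

theorem smul_restrict {U : X.Opens} (r : Γ(X, U)) (x : Γ(M, j ''ᵁ U)) :
    letI x' : Γ(M.restrict j, U) := x
    r • x' = (((j.appIso U).inv r) • x : Γ(M, j ''ᵁ U)) := rfl

theorem isFrame_restrict_iff {W : X.Opens} (e : Γ(M, j ''ᵁ W)) :
    IsFrame (M.restrict j) (U := W) e ↔ IsFrame M e := by
  have key : ∀ (V : X.Opens) (h : V ≤ W),
      Function.Bijective (fun r : Γ(X, V) => r • resM (M.restrict j) (V := V) h e) ↔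
      Function.Bijective (fun r : Γ(Y, j ''ᵁ V) => r • resM M (Scheme.Hom.image_mono _ h) e) := by
    intro V h
    have hb : Function.Bijective (j.appIso V).inv := ConcreteCategory.bijective_of_isIso _
    constructor
    · intro H
      exact (Function.Bijective.of_comp_iff
        (fun r : Γ(Y, j ''ᵁ V) => r • resM M (Scheme.Hom.image_mono _ h) e) hb).mp H
    · intro H
      exact (Function.Bijective.of_comp_iff
        (fun r : Γ(Y, j ''ᵁ V) => r • resM M (Scheme.Hom.image_mono _ h) e) hb).mpr H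
  constructor
  · intro H V h
    have hV : j ''ᵁ (j ⁻¹ᵁ V) = V := by
      rw [Scheme.Hom.image_preimage_eq_opensRange_inf, inf_eq_right]
      exact h.trans (j.image_le_opensRange W)
    have h' : j ⁻¹ᵁ V ≤ W := by
      intro y hy
      obtain ⟨z, hz, hzy⟩ := h (show j y ∈ V from hy)
      rwa [← j.isOpenEmbedding.injective hzy]
    have H' := (key _ h').mp (H _ h')
    revert H'
    generalize Scheme.Hom.image_mono j h' = h''
    revert h''
    rw [hV]
    exact fun _ H' => H'
  · intro H V h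
    exact (key V h).mpr (H _ _)

end Restrict

/-- Frames exist locally on invertible modules. -/
theorem exists_frame {M : X.Modules} (hM : Scheme.Modules.IsInvertible M) (x : X) :
    ∃ (U : X.Opens) (_ : x ∈ U) (e : Γ(M, U)), IsFrame M e := by
  obtain ⟨U, hx, ⟨φ⟩⟩ := hM.exists_trivialization x
  have ψ : M.restrict U.ι ≅ SheafOfModules.unit U.toScheme.ringCatSheaf :=
    (Scheme.Modules.restrictFunctorIsoPullback U.ι).app M ≪≫ φ
  have h := (isFrame_restrict_iff U.ι M (W := ⊤) _).mp ((isFrame_one (X := U.toScheme) ⊤).map ψ.symm)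
  exact ⟨U.ι ''ᵁ ⊤, by simpa using hx, _, h⟩

/-- A module with frames is invertible. -/
theorem isInvertible_of_frames {M : X.Modules}
    (h : ∀ x : X, ∃ (U : X.Opens) (_ : x ∈ U) (e : Γ(M, U)), IsFrame M e) :
    Scheme.Modules.IsInvertible M := by
  refine ⟨fun x => ?_⟩
  obtain ⟨U, hx, e, he⟩ := h x
  refine ⟨U, hx, ?_⟩
  have heq : U.ι ''ᵁ ⊤ = U := U.ι_image_top
  have he' : IsFrame (M.restrict U.ι) (U := ⊤) (resM M heq.le e) :=
    (isFrame_restrict_iff U.ι M _).mpr (he.res heq.le)
  obtain ⟨φ, -⟩ := nonempty_iso_of_frames (N := (SheafOfModules.unit U.toScheme.ringCatSheaf :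
      U.toScheme.Modules)) (U := fun _ : Unit => (⊤ : U.toScheme.Opens))
    (fun y => ⟨(), trivial⟩) (fun _ => he') (fun _ => isFrame_one (X := U.toScheme) ⊤)
    (fun i j r hr => by
      have h1 : (1 : Γ(U.toScheme, (⊤ : U.toScheme.Opens) ⊓ ⊤)) = r :=
        (he'.res inf_le_right).smul_cancel le_rfl (by simpa using hr)
      subst h1
      change _ = (1 : Γ(U.toScheme, _)) * _
      rw [one_mul])
  exact ⟨((Scheme.Modules.restrictFunctorIsoPullback U.ι).app M).symm ≪≫ φ⟩

section Pullback

variable {Y : Scheme.{u}} (f : X ⟶ Y)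

/-- Pullback of sections. -/
def pb (M : Y.Modules) (V : Y.Opens) :
    Γ(M, V) →+ Γ((Scheme.Modules.pullback f).obj M, f ⁻¹ᵁ V) :=
  (((Scheme.Modules.pullbackPushforwardAdjunction f).unit.app M).app V).hom

theorem resM_pb (M : Y.Modules) {U V : Y.Opens} (h : V ≤ U) (x : Γ(M, U)) :
    resM _ (f.preimage_mono h) (pb f M U x) = pb f M V (resM M h x) :=
  (app_resM ((Scheme.Modules.pullbackPushforwardAdjunction f).unit.app M) h x).symm

theorem pb_smul (M : Y.Modules) {V : Y.Opens} (r : Γ(Y, V)) (x : Γ(M, V)) :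
    pb f M V (r • x) = f.app V r • pb f M V x :=
  Scheme.Modules.Hom.app_smul _ r x

theorem pb_naturality {M N : Y.Modules} (φ : M ⟶ N) (V : Y.Opens) (x : Γ(M, V)) :
    pb f N V (φ.app V x) = ((Scheme.Modules.pullback f).map φ).app (f ⁻¹ᵁ V) (pb f M V x) :=
  congr((($((Scheme.Modules.pullbackPushforwardAdjunction f).unit.naturality φ)).app V) x)

theorem pb_unit (V : Y.Opens) (a : Γ(Y, V)) :
    (Scheme.Modules.pullbackUnitIso f).hom.app (f ⁻¹ᵁ V)
      (pb f (SheafOfModules.unit Y.ringCatSheaf) V a) = f.app V a := by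
  have h := (Scheme.Modules.pullbackPushforwardAdjunction f).homEquiv_apply
    (SheafOfModules.unit Y.ringCatSheaf) (SheafOfModules.unit X.ringCatSheaf)
    (SheafOfModules.pullbackObjUnitToUnit f.toRingCatSheafHom)
  have h' : (Scheme.Modules.pullbackPushforwardAdjunction f).homEquiv _ _
      (SheafOfModules.pullbackObjUnitToUnit f.toRingCatSheafHom) =
        SheafOfModules.unitToPushforwardObjUnit f.toRingCatSheafHom :=
    SheafOfModules.pullbackPushforwardAdjunction_homEquiv_pullbackObjUnitToUnit _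
  rw [h'] at h
  exact congr(($h.symm).app V a)

theorem pb_comp {Z : Scheme.{u}} (g : Z ⟶ X) (M : Y.Modules) (V : Y.Opens) (x : Γ(M, V)) :
    ((Scheme.Modules.pullbackComp g f).app M).hom.app _
      (pb g _ (f ⁻¹ᵁ V) (pb f M V x)) = pb (g ≫ f) M V x := by
  have h1 := unit_conjugateEquiv
    ((Scheme.Modules.pullbackPushforwardAdjunction f).comp (Scheme.Modules.pullbackPushforwardAdjunction g))
    (Scheme.Modules.pullbackPushforwardAdjunction (g ≫ f)) (Scheme.Modules.pullbackComp g f).inv M
  rw [Scheme.Modules.conjugateEquiv_pullbackComp_inv] at h1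
  have h2 := congr(($h1).app V x)
  simp only [Scheme.Modules.Hom.comp_app, ConcreteCategory.comp_apply, Adjunction.comp_unit_app,
    Scheme.Modules.pushforwardComp_hom_app_app, Scheme.Modules.pushforward_map_app] at h2
  have h3 := congrArg (((Scheme.Modules.pullbackComp g f).app M).hom.app _) h2
  refine (Eq.trans ?_ h3).trans ?_
  · rfl
  · change ((Scheme.Modules.pullbackComp g f).inv.app M ≫
      (Scheme.Modules.pullbackComp g f).hom.app M).app _ _ = _
    rw [Iso.inv_hom_id_app]
    rfl

theorem pb_congr {f' : X ⟶ Y} (h : f = f') (M : Y.Modules) (V : Y.Opens) (x : Γ(M, V)) :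
    ((Scheme.Modules.pullbackCongr h).app M).hom.app _ (pb f M V x) =
      resM _ (by subst h; exact le_rfl) (pb f' M V x) := by
  subst h
  simp [Scheme.Modules.pullbackCongr]

theorem isFrame_pb_ι {M : X.Modules} {U : X.Opens} {e : Γ(M, U)} (he : IsFrame M e) :
    IsFrame ((Scheme.Modules.pullback U.ι).obj M) (pb U.ι M U e) := by
  let η := (Scheme.Modules.restrictFunctorIsoPullback U.ι)
  have h := (Scheme.Modules.restrictAdjunction U.ι).unit_leftAdjointUniq_hom_app
    (Scheme.Modules.pullbackPushforwardAdjunction U.ι) M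
  have h' := congr(($h).app U e)
  rw [show pb U.ι M U e = (η.hom.app M).app _
      (resM M (U.ι.image_preimage_le U) e) from h'.symm]
  exact ((isFrame_restrict_iff U.ι M _).mpr (he.res _)).map (η.app M)

/-- Pullback of a frame. -/
theorem IsFrame.pb {M : Y.Modules} {V : Y.Opens} {e : Γ(M, V)} (he : IsFrame M e) :
    IsFrame ((Scheme.Modules.pullback f).obj M) (pb f M V e) := by
  have heq : V.ι ⁻¹ᵁ V = ⊤ := V.ι_preimage_self
  obtain ⟨φ, hφ⟩ := nonempty_iso_of_frames
    (N := (SheafOfModules.unit V.toScheme.ringCatSheaf : V.toScheme.Modules))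
    (U := fun _ : Unit => V.ι ⁻¹ᵁ V) (fun y => ⟨(), y.2⟩)
    (fun _ => isFrame_pb_ι he) (fun _ => isFrame_one (X := V.toScheme) _)
    (fun i j r hr => by
      have h1 : (1 : Γ(V.toScheme, V.ι ⁻¹ᵁ V ⊓ V.ι ⁻¹ᵁ V)) = r :=
        (((isFrame_pb_ι he).res inf_le_right)).smul_cancel le_rfl (by simpa using hr)
      subst h1
      change _ = (1 : Γ(V.toScheme, _)) * _
      rw [one_mul])
  let g := f ∣_ V
  let U' := f ⁻¹ᵁ V
  have hfact : g ≫ V.ι = U'.ι ≫ f := morphismRestrict_ι f V
  have h1 : IsFrame _ (Shf.pb g _ (V.ι ⁻¹ᵁ V) (Shf.pb V.ι M V e)) := by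
    have := (isFrame_one (X := U'.toScheme) (g ⁻¹ᵁ (V.ι ⁻¹ᵁ V))).map
      (Scheme.Modules.pullbackUnitIso g).symm
    let one' : Γ((SheafOfModules.unit U'.toScheme.ringCatSheaf : U'.toScheme.Modules),
      g ⁻¹ᵁ (V.ι ⁻¹ᵁ V)) := (1 : Γ(U'.toScheme, g ⁻¹ᵁ (V.ι ⁻¹ᵁ V)))
    rw [show (Scheme.Modules.pullbackUnitIso g).symm.hom.app _ one' =
      Shf.pb g _ (V.ι ⁻¹ᵁ V) (φ.hom.app _ (Shf.pb V.ι M V e)) from by
        rw [hφ ()]
        apply (ConcreteCategory.bijective_of_isIso
          ((Scheme.Modules.pullbackUnitIso g).hom.app _)).1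
        rw [pb_unit, map_one]
        exact congr(($((Scheme.Modules.pullbackUnitIso g).inv_hom_id)).app _ one')] at this
    rw [pb_naturality] at this
    have h2 := this.map ((Scheme.Modules.pullback g).mapIso φ.symm)
    convert h2 using 1
    exact (congr(($(((Scheme.Modules.pullback g).mapIso φ).hom_inv_id)).app _
      (Shf.pb g _ (V.ι ⁻¹ᵁ V) (Shf.pb V.ι M V e)))).symm
  have h2 := h1.map ((Scheme.Modules.pullbackComp g V.ι).app M)
  rw [pb_comp] at h2
  have h3 := h2.map ((Scheme.Modules.pullbackCongr hfact).app M)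
  erw [pb_congr (g ≫ V.ι) hfact] at h3
  have hle : U'.ι ⁻¹ᵁ (f ⁻¹ᵁ V) ≤ (g ≫ V.ι) ⁻¹ᵁ V := by
    rw [hfact]
    exact le_rfl
  have h4 := h3.res hle
  erw [resM_resM, resM_self] at h4
  have h5 := h4.map ((Scheme.Modules.pullbackComp U'.ι f).app M).symm
  rw [← pb_comp f U'.ι] at h5
  have h6 : IsFrame _ (Shf.pb U'.ι _ U' (Shf.pb f M V e)) := by
    exact Eq.mp (congrArg (IsFrame ((Scheme.Modules.pullback f ⋙ Scheme.Modules.pullback U'.ι).obj M))
      (app_hom_inv ((Scheme.Modules.pullbackComp U'.ι f).app M) (U'.ι ⁻¹ᵁ U')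
        (Shf.pb U'.ι ((Scheme.Modules.pullback f).obj M) U' (Shf.pb f M V e)))) h5
  let η := Scheme.Modules.restrictFunctorIsoPullback U'.ι
  have h7 := h6.map (η.app ((Scheme.Modules.pullback f).obj M)).symm
  have h' := congr(($((Scheme.Modules.restrictAdjunction U'.ι).unit_leftAdjointUniq_hom_app
    (Scheme.Modules.pullbackPushforwardAdjunction U'.ι) ((Scheme.Modules.pullback f).obj M))).app U'
      (Shf.pb f M V e))
  have h8 : IsFrame _ (resM _ (U'.ι.image_preimage_le U') (Shf.pb f M V e)) := by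
    refine (isFrame_restrict_iff U'.ι _ _).mp ?_
    convert h7 using 1
    rw [show Shf.pb U'.ι _ U' (Shf.pb f M V e) = (η.hom.app _).app _
      (resM _ (U'.ι.image_preimage_le U') (Shf.pb f M V e)) from h'.symm]
    exact (congr(($((η.app ((Scheme.Modules.pullback f).obj M)).hom_inv_id)).app _
      (resM _ (U'.ι.image_preimage_le U') (Shf.pb f M V e)))).symm
  have hge : U' ≤ U'.ι ''ᵁ (U'.ι ⁻¹ᵁ U') := by simp
  have h9 := h8.res hge
  rwa [resM_resM, resM_self] at h9

end Pullback

end Fermat.Agent.Jac.Shf
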