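/-
S25: the sheaf of modules of a multiplicative cocycle.
-/
import Fermat.Agent.Jac.Sheaf.Frame

set_option autoImplicit false

noncomputable section

universe u

open CategoryTheory CategoryTheory.Limits AlgebraicGeometry TopologicalSpace Opposite

namespace Fermat.Agent.Jac.Shf

variable {X : Scheme.{u}}

theorem ext_functions {ι : Type*} {V : X.Opens} (U : ι → X.Opens)
    (hU : ∀ i, U i ≤ V) (hcov : ∀ x ∈ V, ∃ i, x ∈ U i) {s t : Γ(X, V)}
    (h : ∀ i, resO (hU i) s = resO (hU i) t) : s = t :=
  ext_sections (SheafOfModules.unit X.ringCatSheaf : X.Modules) U hU hcov h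

theorem exists_glue_functions {ι : Type*} {V : X.Opens} (U : ι → X.Opens)
    (hU : ∀ i, U i ≤ V) (hcov : ∀ x ∈ V, ∃ i, x ∈ U i) (s : ∀ i, Γ(X, U i))
    (hs : ∀ i j, resO (inf_le_left : U i ⊓ U j ≤ U i) (s i) = resO inf_le_right (s j)) :
    ∃ t : Γ(X, V), ∀ i, resO (hU i) t = s i :=
  exists_glue_sections (SheafOfModules.unit X.ringCatSheaf : X.Modules) U hU hcov s hs

/-- Multiplicative cocycles on an open cover; `g i j` is the coefficient of the `i`-th frame in the
`j`-th one. -/
structure Cocycle (X : Scheme.{u}) where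
  ι : Type u
  U : ι → X.Opens
  covers : ∀ x : X, ∃ i, x ∈ U i
  g : ∀ i j, Γ(X, U i ⊓ U j)
  g_self : ∀ i, g i i = 1
  g_mul : ∀ i j l, resO (inf_le_left : U i ⊓ U j ⊓ U l ≤ U i ⊓ U j) (g i j) *
      resO (le_inf (inf_le_left.trans inf_le_right) inf_le_right : U i ⊓ U j ⊓ U l ≤ U j ⊓ U l) (g j l) =
    resO (le_inf (inf_le_left.trans inf_le_left) inf_le_right : U i ⊓ U j ⊓ U l ≤ U i ⊓ U l) (g i l)

namespace Cocycle

variable (c : Cocycle X)

/-- The cocycle on any common open subset. -/
def gOn {W : X.Opens} (i j : c.ι) (hi : W ≤ c.U i) (hj : W ≤ c.U j) : Γ(X, W) :=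
  resO (le_inf hi hj) (c.g i j)

theorem resO_gOn {W W' : X.Opens} (i j : c.ι) (hi : W ≤ c.U i) (hj : W ≤ c.U j) (h : W' ≤ W) :
    resO h (c.gOn i j hi hj) = c.gOn i j (h.trans hi) (h.trans hj) := by
  simp [gOn]

theorem gOn_mul {W : X.Opens} (i j l : c.ι) (hi : W ≤ c.U i) (hj : W ≤ c.U j) (hl : W ≤ c.U l) :
    c.gOn i j hi hj * c.gOn j l hj hl = c.gOn i l hi hl := by
  have h := congrArg (resO (le_inf (le_inf hi hj) hl)) (c.g_mul i j l)
  simpa [gOn] using h

@[simp]
theorem gOn_self {W : X.Opens} (i : c.ι) (hi hi' : W ≤ c.U i) : c.gOn i i hi hi' = 1 := by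
  simp [gOn, c.g_self]

/-- Families of coefficients defining a section. -/
def IsSection (V : X.Opens) (f : ∀ i, Γ(X, V ⊓ c.U i)) : Prop :=
  ∀ (i j : c.ι) (W : X.Opens) (hV : W ≤ V) (hi : W ≤ c.U i) (hj : W ≤ c.U j),
    resO (le_inf hV hi) (f i) * c.gOn i j hi hj = resO (le_inf hV hj) (f j)

/-- The sections over an open subset. -/
def sections (V : X.Opens) : AddSubgroup (∀ i, Γ(X, V ⊓ c.U i)) where
  carrier := {f | c.IsSection V f}
  add_mem' {f f'} hf hf' i j W hV hi hj := by
    simp only [Pi.add_apply, map_add, add_mul, hf i j W hV hi hj, hf' i j W hV hi hj]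
  zero_mem' i j W hV hi hj := by simp
  neg_mem' {f} hf i j W hV hi hj := by
    simp only [Pi.neg_apply, map_neg, neg_mul, hf i j W hV hi hj]

theorem ext_section {V : X.Opens} {f f' : c.sections V} (h : ∀ i, f.1 i = f'.1 i) : f = f' :=
  Subtype.ext (funext h)

instance sectionsSMul (V : X.Opens) : SMul Γ(X, V) (c.sections V) where
  smul r f := ⟨fun i => resO inf_le_left r * f.1 i, fun i j W hV hi hj => by
    simp only [map_mul, resO_resO, mul_assoc, f.2 i j W hV hi hj]⟩

theorem smul_coe {V : X.Opens} (r : Γ(X, V)) (f : c.sections V) (i : c.ι) :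
    (r • f).1 i = resO inf_le_left r * f.1 i := rfl

instance sectionsModule (V : X.Opens) : Module Γ(X, V) (c.sections V) where
  one_smul f := c.ext_section fun i => by simp [smul_coe]
  mul_smul r r' f := c.ext_section fun i => by simp [smul_coe, mul_assoc]
  smul_zero r := c.ext_section fun i => by simp [smul_coe]
  smul_add r f f' := c.ext_section fun i => by simp [smul_coe, mul_add]
  add_smul r r' f := c.ext_section fun i => by simp [smul_coe, add_mul]
  zero_smul f := c.ext_section fun i => by simp [smul_coe]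

/-- Restriction of sections. -/
def sectionsRes {V V' : X.Opens} (h : V' ≤ V) : c.sections V →+ c.sections V' where
  toFun f := ⟨fun i => resO (inf_le_inf_right _ h) (f.1 i), fun i j W hV hi hj => by
    simpa using f.2 i j W (hV.trans h) hi hj⟩
  map_zero' := c.ext_section fun i => map_zero _
  map_add' f f' := c.ext_section fun i => map_add _ _ _

theorem sectionsRes_coe {V V' : X.Opens} (h : V' ≤ V) (f : c.sections V) (i : c.ι) :
    (c.sectionsRes h f).1 i = resO (inf_le_inf_right _ h) (f.1 i) := rfl

/-- The abelian presheaf. -/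
def abPresheaf : TopCat.Presheaf Ab.{u} X where
  obj V := AddCommGrpCat.of (c.sections V.unop)
  map {V W} f := AddCommGrpCat.ofHom (c.sectionsRes (leOfHom f.unop))
  map_id V := AddCommGrpCat.ext fun f => c.ext_section fun i => by
    exact resO_self (inf_le_inf_right _ le_rfl) (f.1 i)
  map_comp {V W T} f h := AddCommGrpCat.ext fun s => c.ext_section fun i => by
    exact (resO_resO _ _ _).symm

instance abPresheafModule (V : (Opens X)ᵒᵖ) :
    Module (X.ringCatSheaf.obj.obj V) (c.abPresheaf.obj V) :=
  inferInstanceAs (Module Γ(X, V.unop) (c.sections V.unop))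

/-- The presheaf of modules. -/
def presheafOfModules : PresheafOfModules X.ringCatSheaf.obj :=
  PresheafOfModules.ofPresheaf c.abPresheaf fun V W f r x => c.ext_section fun i => by
    change resO (inf_le_inf_right _ (leOfHom f.unop))
        (resO inf_le_left (r : Γ(X, V.unop)) * (x : c.sections V.unop).1 i) =
      resO inf_le_left (resO (leOfHom f.unop) (r : Γ(X, V.unop))) *
        resO (inf_le_inf_right _ (leOfHom f.unop)) ((x : c.sections V.unop).1 i)
    rw [map_mul]
    erw [resO_resO, resO_resO]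

theorem isSheaf : TopCat.Presheaf.IsSheaf c.presheafOfModules.presheaf := by
  change TopCat.Presheaf.IsSheaf c.abPresheaf
  rw [TopCat.Presheaf.isSheaf_iff_isSheafUniqueGluing]
  intro κ O sf hsf
  have hsf' : ∀ a b i, resO (inf_le_inf_right _ inf_le_left) ((sf a).1 i) =
      resO (inf_le_inf_right _ inf_le_right : O a ⊓ O b ⊓ c.U i ≤ O b ⊓ c.U i) ((sf b).1 i) :=
    fun a b i => congrFun (congrArg Subtype.val (hsf a b)) i
  have hcov : ∀ i : c.ι, ∀ x ∈ iSup O ⊓ c.U i, ∃ a, x ∈ O a ⊓ c.U i := fun i x hx =>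
    (Opens.mem_iSup.mp hx.1).imp fun a ha => ⟨ha, hx.2⟩
  choose t ht using fun i => exists_glue_functions (fun a => O a ⊓ c.U i)
    (fun a => inf_le_inf_right _ (le_iSup O a)) (hcov i) (fun a => (sf a).1 i) (fun a b => by
      have h := congrArg (resO (le_inf (le_inf (inf_le_left.trans inf_le_left)
        (inf_le_right.trans inf_le_left)) (inf_le_left.trans inf_le_right) :
          (O a ⊓ c.U i) ⊓ (O b ⊓ c.U i) ≤ O a ⊓ O b ⊓ c.U i)) (hsf' a b i)
      simpa using h)
  have htS : c.IsSection (iSup O) t := fun i j W hV hi hj => by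
    refine ext_functions (fun a => W ⊓ O a) (fun _ => inf_le_left)
      (fun x hx => (Opens.mem_iSup.mp (hV hx)).imp fun a ha => ⟨hx, ha⟩) fun a => ?_
    have ei := congrArg (resO (le_inf inf_le_right (inf_le_left.trans hi) :
      W ⊓ O a ≤ O a ⊓ c.U i)) (ht i a)
    have ej := congrArg (resO (le_inf inf_le_right (inf_le_left.trans hj) :
      W ⊓ O a ≤ O a ⊓ c.U j)) (ht j a)
    simp only [resO_resO] at ei ej
    simp only [map_mul, resO_resO, resO_gOn, ei, ej]
    exact (sf a).2 i j _ inf_le_right _ _
  refine ⟨(⟨t, htS⟩ : c.sections (iSup O)), fun a => c.ext_section fun i => ht i a,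
    fun t' ht' => c.ext_section fun i => ?_⟩
  exact ext_functions (fun a => O a ⊓ c.U i) (fun a => inf_le_inf_right _ (le_iSup O a)) (hcov i)
    fun a => (congrFun (congrArg Subtype.val (ht' a)) i).trans (ht i a).symm

/-- The module of the cocycle. -/
def toModules : X.Modules where
  val := c.presheafOfModules
  isSheaf := c.isSheaf

/-- The tautological frames. -/
def frame (i : c.ι) : Γ(c.toModules, c.U i) :=
  (⟨fun j => c.gOn i j inf_le_left inf_le_right, fun j l W hV hj hl => by
    simp only [resO_gOn]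
    exact c.gOn_mul i j l _ _ _⟩ : c.sections (c.U i))

theorem resM_frame (i : c.ι) {V : X.Opens} (h : V ≤ c.U i) :
    (resM c.toModules h (c.frame i) : c.sections V).1 =
      fun j => c.gOn i j (inf_le_left.trans h) inf_le_right :=
  funext fun j => c.resO_gOn i j (inf_le_left : c.U i ⊓ c.U j ≤ c.U i) inf_le_right
    (inf_le_inf_right _ h)

theorem isFrame_frame (i : c.ι) : IsFrame c.toModules (c.frame i) := by
  intro V h
  refine ⟨fun r r' hr => ?_, fun x => ?_⟩
  · have h' := congrFun (congrArg (fun z : c.sections V => z.1) hr) i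
    change resO _ r * (resM c.toModules h (c.frame i) : c.sections V).1 i =
      resO _ r' * (resM c.toModules h (c.frame i) : c.sections V).1 i at h'
    rw [c.resM_frame i h] at h'
    simp only [gOn_self, mul_one] at h'
    have := congrArg (resO (le_inf le_rfl h : V ≤ V ⊓ c.U i)) h'
    simpa using this
  · refine ⟨resO (le_inf le_rfl h : V ≤ V ⊓ c.U i) ((x : c.sections V).1 i), c.ext_section fun j => ?_⟩
    change resO _ (resO _ ((x : c.sections V).1 i)) *
      (resM c.toModules h (c.frame i) : c.sections V).1 j = _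
    rw [c.resM_frame i h, resO_resO]
    simpa using (x : c.sections V).2 i j (V ⊓ c.U j) inf_le_left (inf_le_left.trans h) inf_le_right

theorem frame_rel (i j : c.ι) :
    resM c.toModules (inf_le_left : c.U i ⊓ c.U j ≤ c.U i) (c.frame i) =
      c.g i j • resM c.toModules inf_le_right (c.frame j) := by
  refine c.ext_section fun l => ?_
  change _ = resO _ (c.g i j) * (resM c.toModules inf_le_right (c.frame j) : c.sections _).1 l
  rw [c.resM_frame i, c.resM_frame j]
  exact (c.gOn_mul i j l _ _ _).symm

theorem isInvertible_toModules : Scheme.Modules.IsInvertible c.toModules :=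
  isInvertible_of_frames fun x =>
    let ⟨i, hi⟩ := c.covers x
    ⟨c.U i, hi, c.frame i, c.isFrame_frame i⟩

/-- A module with frames following the cocycle is its module. -/
theorem nonempty_iso {M : X.Modules} {e : ∀ i, Γ(M, c.U i)} (he : ∀ i, IsFrame M (e i))
    (hrel : ∀ i j, resM M inf_le_left (e i) = c.g i j • resM M inf_le_right (e j)) :
    ∃ φ : c.toModules ≅ M, ∀ i, φ.hom.app (c.U i) (c.frame i) = e i := by
  refine nonempty_iso_of_frames c.covers c.isFrame_frame he fun i j r hr => ?_
  rw [((c.isFrame_frame j).smul_cancel inf_le_right (hr.symm.trans (c.frame_rel i j)) : r = c.g i j)]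
  exact hrel i j

end Cocycle

end Fermat.Agent.Jac.Shf
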