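/-
S25 U4: dual frames, their pairing, pullback, sections on affine opens.
-/
import Fermat.Agent.Jac.Sheaf.Glue

set_option autoImplicit false

noncomputable section

universe u

open CategoryTheory CategoryTheory.Limits AlgebraicGeometry TopologicalSpace Opposite

namespace Fermat.Agent.Jac.Shf

variable {X : Scheme.{u}}

/-- Two modules with dual frames on a common open cover. -/
structure DualFrames (M M' : X.Modules) where
  ι : Type u
  U : ι → X.Opens
  covers : ∀ x : X, ∃ i, x ∈ U i
  e : ∀ i, Γ(M, U i)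
  e' : ∀ i, Γ(M', U i)
  isFrame : ∀ i, IsFrame M (e i)
  isFrame' : ∀ i, IsFrame M' (e' i)
  rel : ∀ (i j : ι) (r : Γ(X, U i ⊓ U j)),
    resM M inf_le_left (e i) = r • resM M inf_le_right (e j) →
      resM M' inf_le_right (e' j) = r • resM M' inf_le_left (e' i)

namespace DualFrames

variable {M M' : X.Modules} (F : DualFrames M M')

theorem rel_le {i j : F.ι} {W : X.Opens} (hi : W ≤ F.U i) (hj : W ≤ F.U j) {r : Γ(X, W)}
    (h : resM M hi (F.e i) = r • resM M hj (F.e j)) :
    resM M' hj (F.e' j) = r • resM M' hi (F.e' i) := by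
  set g := (F.isFrame j).coeff inf_le_right (resM M (inf_le_left : F.U i ⊓ F.U j ≤ F.U i) (F.e i))
  have hg : resM M inf_le_left (F.e i) = g • resM M inf_le_right (F.e j) :=
    ((F.isFrame j).coeff_spec _ _).symm
  have h1 := congrArg (resM M (le_inf hi hj)) hg
  have h2 := congrArg (resM M' (le_inf hi hj)) (F.rel i j g hg)
  simp only [resM_smul, resM_resM] at h1 h2
  rw [h2, (F.isFrame j).smul_cancel hj (h.symm.trans h1)]

/-- The other way round. -/
def symm : DualFrames M' M where
  ι := F.ι
  U := F.U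
  covers := F.covers
  e := F.e'
  e' := F.e
  isFrame := F.isFrame'
  isFrame' := F.isFrame
  rel i j r hr := by
    set r' := (F.isFrame i).coeff inf_le_left (resM M (inf_le_right : F.U i ⊓ F.U j ≤ F.U j) (F.e j))
    have hr' : resM M inf_le_right (F.e j) = r' • resM M inf_le_left (F.e i) :=
      ((F.isFrame i).coeff_spec _ _).symm
    have h := F.rel_le inf_le_right inf_le_left hr'
    rw [(F.isFrame' j).smul_cancel inf_le_right (hr.symm.trans h)]
    exact hr'

theorem exists_pair {V : X.Opens} (s : Γ(M, V)) (t : Γ(M', V)) :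
    ∃ P : Γ(X, V), ∀ (i : F.ι) (W : X.Opens) (hV : W ≤ V) (hi : W ≤ F.U i),
      resO hV P = (F.isFrame i).coeff hi (resM M hV s) * (F.isFrame' i).coeff hi (resM M' hV t) := by
  have key : ∀ (i j : F.ι) (W : X.Opens) (hV : W ≤ V) (hi : W ≤ F.U i) (hj : W ≤ F.U j),
      (F.isFrame i).coeff hi (resM M hV s) * (F.isFrame' i).coeff hi (resM M' hV t) =
        (F.isFrame j).coeff hj (resM M hV s) * (F.isFrame' j).coeff hj (resM M' hV t) := by
    intro i j W hV hi hj
    set g := (F.isFrame j).coeff hj (resM M hi (F.e i))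
    have hg : resM M hi (F.e i) = g • resM M hj (F.e j) := ((F.isFrame j).coeff_spec _ _).symm
    have hg' := F.rel_le hi hj hg
    have e1 : (F.isFrame j).coeff hj (resM M hV s) = (F.isFrame i).coeff hi (resM M hV s) * g :=
      (F.isFrame j).coeff_eq hj (by rw [mul_smul, ← hg, (F.isFrame i).coeff_spec])
    have e2 : (F.isFrame' i).coeff hi (resM M' hV t) = (F.isFrame' j).coeff hj (resM M' hV t) * g :=
      (F.isFrame' i).coeff_eq hi (by rw [mul_smul, ← hg', (F.isFrame' j).coeff_spec])
    rw [e1, e2]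
    ring
  obtain ⟨P, hP⟩ := exists_glue_functions (fun i => V ⊓ F.U i) (fun _ => inf_le_left)
    (fun x hx => (F.covers x).imp fun i hi => ⟨hx, hi⟩)
    (fun i => (F.isFrame i).coeff inf_le_right (resM M inf_le_left s) *
      (F.isFrame' i).coeff inf_le_right (resM M' inf_le_left t))
    (fun i j => by
      simp only [map_mul, IsFrame.resO_coeff, resM_resM]
      exact key i j _ (inf_le_left.trans inf_le_left) _ _)
  refine ⟨P, fun i W hV hi => ?_⟩
  have h := congrArg (resO (le_inf hV hi)) (hP i)
  simpa only [resO_resO, map_mul, IsFrame.resO_coeff, resM_resM] using h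

/-- Pullback of dual frames. -/
def pullback {Y : Scheme.{u}} (f : Y ⟶ X) :
    DualFrames ((Scheme.Modules.pullback f).obj M) ((Scheme.Modules.pullback f).obj M') where
  ι := F.ι
  U i := f ⁻¹ᵁ F.U i
  covers y := F.covers (f y)
  e i := pb f M (F.U i) (F.e i)
  e' i := pb f M' (F.U i) (F.e' i)
  isFrame i := (F.isFrame i).pb f
  isFrame' i := (F.isFrame' i).pb f
  rel i j r hr := by
    set g := (F.isFrame j).coeff inf_le_right (resM M (inf_le_left : F.U i ⊓ F.U j ≤ F.U i) (F.e i))
    have hg : resM M inf_le_left (F.e i) = g • resM M inf_le_right (F.e j) :=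
      ((F.isFrame j).coeff_spec _ _).symm
    have h1 := congrArg (pb f M _) hg
    have h2 := congrArg (pb f M' _) (F.rel i j g hg)
    rw [pb_smul, ← resM_pb, ← resM_pb] at h1 h2
    have hr' : f.app _ g = r := ((F.isFrame j).pb f).smul_cancel _ (h1.symm.trans hr)
    rw [← hr']
    exact h2

end DualFrames

/-- Every invertible module with a chosen frame has a dual with a matching frame. -/
theorem exists_dualFrames {M : X.Modules} (hM : Scheme.Modules.IsInvertible M) {V : X.Opens}
    {e : Γ(M, V)} (he : IsFrame M e) :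
    ∃ (M' : X.Modules) (F : DualFrames M M') (i₀ : F.ι) (h : F.U i₀ = V),
      resM M h.le e = F.e i₀ := by
  choose U hU eU heU using fun x : X => exists_frame hM x
  let U' : Option X → X.Opens := fun i => i.elim V U
  let E : ∀ i, Γ(M, U' i) := fun i => match i with
    | none => e
    | some x => eU x
  have hE : ∀ i, IsFrame M (E i) := fun i => match i with
    | none => he
    | some x => heU x
  let G : ∀ i j, Γ(X, U' i ⊓ U' j) := fun i j =>
    (hE i).coeff inf_le_left (resM M (inf_le_right : U' i ⊓ U' j ≤ U' j) (E j))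
  have hG : ∀ (i j : Option X) (W : X.Opens) (hi : W ≤ U' i) (hj : W ≤ U' j),
      resO (le_inf hi hj) (G i j) • resM M hi (E i) = resM M hj (E j) := fun i j W hi hj => by
    have h := congrArg (resM M (le_inf hi hj))
      ((hE i).coeff_spec inf_le_left (resM M (inf_le_right : U' i ⊓ U' j ≤ U' j) (E j)))
    simpa only [resM_smul, resM_resM] using h
  let c : Cocycle X :=
    { ι := Option X
      U := U'
      covers := fun x => ⟨some x, hU x⟩
      g := G
      g_self := fun i => (hE i).coeff_eq _ (by simp)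
      g_mul := fun i j l => by
        have h1 := hG i j (U' i ⊓ U' j ⊓ U' l) (inf_le_left.trans inf_le_left)
          (inf_le_left.trans inf_le_right)
        have h2 := hG j l (U' i ⊓ U' j ⊓ U' l) (inf_le_left.trans inf_le_right) inf_le_right
        have h3 := hG i l (U' i ⊓ U' j ⊓ U' l) (inf_le_left.trans inf_le_left) inf_le_right
        refine (hE i).smul_cancel (inf_le_left.trans inf_le_left) ?_
        rw [mul_comm, mul_smul, h1, h2, h3] }
  refine ⟨c.toModules, ⟨Option X, U', c.covers, E, c.frame, hE, c.isFrame_frame, fun i j r hr => ?_⟩,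
    none, rfl, resM_self M _ e⟩
  have h := hG j i (U' i ⊓ U' j) inf_le_right inf_le_left
  have hrG : resO (le_inf inf_le_right inf_le_left) (G j i) = r :=
    (hE j).smul_cancel inf_le_right (h.trans hr)
  rw [← hrG]
  have h2 := congrArg (resM c.toModules
    (le_inf inf_le_right inf_le_left : U' i ⊓ U' j ≤ U' j ⊓ U' i)) (c.frame_rel j i)
  simp only [resM_smul, resM_resM] at h2
  exact h2

section Affine

variable {M : X.Modules} (hM : Scheme.Modules.IsInvertible M) {U : X.Opens} (hU : IsAffineOpen U)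

theorem exists_basic_frames_cover (hM : Scheme.Modules.IsInvertible M) (hU : IsAffineOpen U) :
    ∃ F : Finset Γ(X, U), Ideal.span (F : Set Γ(X, U)) = ⊤ ∧
      ∀ a ∈ F, ∃ e : Γ(M, X.basicOpen a), IsFrame M e := by
  let T : Set Γ(X, U) := {a | ∃ e : Γ(M, X.basicOpen a), IsFrame M e}
  have hT : Ideal.span T = ⊤ := by
    rw [← hU.self_le_iSup_basicOpen_iff]
    intro x hx
    obtain ⟨V, hxV, e, he⟩ := exists_frame hM x
    obtain ⟨a, haV, hxa⟩ := hU.exists_basicOpen_le (V := V) ⟨x, hxV⟩ hx
    exact Opens.mem_iSup.mpr ⟨⟨a, resM M haV e, he.res haV⟩, hxa⟩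
  obtain ⟨F, hFT, hF⟩ := Submodule.mem_span_finite_of_mem_span
    ((Ideal.eq_top_iff_one _).mp hT : (1 : Γ(X, U)) ∈ Submodule.span Γ(X, U) T)
  exact ⟨F, (Ideal.eq_top_iff_one _).mpr hF, fun a ha => hFT ha⟩

theorem mem_of_span_eq_top (hU : IsAffineOpen U) {F : Set Γ(X, U)} (hF : Ideal.span F = ⊤) {x : X}
    (hx : x ∈ U) : ∃ a : F, x ∈ X.basicOpen (a : Γ(X, U)) :=
  Opens.mem_iSup.mp (hU.self_le_iSup_basicOpen_iff.mpr hF hx)

/-- A section vanishing on a basic open subset is killed by a power of the function. -/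
theorem exists_pow_smul_eq_zero (hM : Scheme.Modules.IsInvertible M) (hU : IsAffineOpen U)
    (y : Γ(X, U)) (s : Γ(M, U)) (hs : resM M (X.basicOpen_le y) s = 0) :
    ∃ N : ℕ, y ^ N • s = 0 := by
  classical
  obtain ⟨F, hF, hfr⟩ := exists_basic_frames_cover hM hU
  choose! e he using hfr
  have key : ∀ a ∈ F, ∃ N : ℕ, resO (X.basicOpen_le a) y ^ N • resM M (X.basicOpen_le a) s = 0 := by
    intro a ha
    let y' := resO (X.basicOpen_le a) y
    let f := (he a ha).coeff le_rfl (resM M (X.basicOpen_le a) s)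
    have heq : X.basicOpen y' = X.basicOpen a ⊓ X.basicOpen y := X.basicOpen_res y _
    have h0 : resO (X.basicOpen_le y') f = 0 := by
      rw [(he a ha).resO_coeff]
      refine (he a ha).coeff_eq _ ?_
      rw [zero_smul, resM_resM, ← resM_resM M (X.basicOpen_le y) (heq.le.trans inf_le_right), hs,
        map_zero]
    letI := (resO (X.basicOpen_le y')).toAlgebra
    haveI : IsLocalization.Away y' Γ(X, X.basicOpen y') :=
      (hU.basicOpen a).isLocalization_basicOpen y'
    obtain ⟨⟨_, N, rfl⟩, hN⟩ := (IsLocalization.map_eq_zero_iff (Submonoid.powers y') _ f).mp h0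
    refine ⟨N, ?_⟩
    rw [← (he a ha).coeff_spec le_rfl (resM M (X.basicOpen_le a) s), ← mul_smul]
    change (y' ^ N * f) • _ = _
    rw [show y' ^ N * f = 0 from hN, zero_smul]
  choose! N hN using key
  refine ⟨F.sup N, ext_sections M (fun a : F => X.basicOpen (a : Γ(X, U)))
    (fun a => X.basicOpen_le _) (fun x hx => mem_of_span_eq_top hU hF hx) fun a => ?_⟩
  rw [resM_smul, map_zero, map_pow, ← Nat.sub_add_cancel (Finset.le_sup (f := N) a.2), pow_add,
    mul_smul, hN a a.2, smul_zero]

/-- Sections on a basic open subset extend after multiplication by a power of the function. -/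
theorem exists_extend (hM : Scheme.Modules.IsInvertible M) (hU : IsAffineOpen U)
    (y : Γ(X, U)) (e : Γ(M, X.basicOpen y)) :
    ∃ (N : ℕ) (s : Γ(M, U)),
      resM M (X.basicOpen_le y) s = resO (X.basicOpen_le y) y ^ N • e := by
  classical
  obtain ⟨F, hF, hfr⟩ := exists_basic_frames_cover hM hU
  choose! eF he using hfr
  have key : ∀ a ∈ F, ∃ (N : ℕ) (t : Γ(M, X.basicOpen a)),
      ∀ (W : X.Opens) (ha : W ≤ X.basicOpen a) (hy : W ≤ X.basicOpen y),
        resM M ha t = resO (hy.trans (X.basicOpen_le y)) y ^ N • resM M hy e := by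
    intro a ha
    let y' := resO (X.basicOpen_le a) y
    have heq : X.basicOpen y' = X.basicOpen a ⊓ X.basicOpen y := X.basicOpen_res y _
    let q := (he a ha).coeff (X.basicOpen_le y') (resM M (heq.le.trans inf_le_right) e)
    letI := (resO (X.basicOpen_le y')).toAlgebra
    haveI : IsLocalization.Away y' Γ(X, X.basicOpen y') :=
      (hU.basicOpen a).isLocalization_basicOpen y'
    obtain ⟨N, r, hr⟩ := IsLocalization.Away.surj y' q
    refine ⟨N, r • eF a, fun W hWa hWy => ?_⟩
    have hW : W ≤ X.basicOpen y' := (le_inf hWa hWy).trans heq.ge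
    have h := congrArg (fun z => resM M hW (z • resM M (X.basicOpen_le y') (eF a))) hr
    change resM M hW ((q * resO _ y' ^ N) • _) = resM M hW (resO _ r • _) at h
    rw [mul_comm q, mul_smul, (he a ha).coeff_spec] at h
    simp only [resM_smul, resM_resM, map_pow, resO_resO, y'] at h
    rw [resM_smul]
    exact h.symm
  choose! N t ht using key
  let N₀ := F.sup N
  let t' : ∀ a : F, Γ(M, X.basicOpen (a : Γ(X, U))) := fun a =>
    resO (X.basicOpen_le (a : Γ(X, U))) y ^ (N₀ - N a) • t a
  have ht' : ∀ (a : F) (W : X.Opens) (ha : W ≤ X.basicOpen (a : Γ(X, U))) (hy : W ≤ X.basicOpen y),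
      resM M ha (t' a) = resO (hy.trans (X.basicOpen_le y)) y ^ N₀ • resM M hy e := by
    intro a W hWa hWy
    simp only [t', resM_smul, map_pow, resO_resO, ht a a.2 W hWa hWy, ← mul_smul, ← pow_add,
      Nat.sub_add_cancel (Finset.le_sup (f := N) a.2), N₀]
  have comp : ∀ a b : F, ∃ K : ℕ,
      resO (inf_le_left.trans (X.basicOpen_le _) :
        X.basicOpen (a : Γ(X, U)) ⊓ X.basicOpen (b : Γ(X, U)) ≤ U) y ^ K •
        (resM M inf_le_left (t' a) - resM M inf_le_right (t' b)) = 0 := by
    intro a b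
    set W := X.basicOpen (a : Γ(X, U)) ⊓ X.basicOpen (b : Γ(X, U)) with hW
    have hWaff : IsAffineOpen W := by
      rw [hW, ← Scheme.basicOpen_mul]
      exact hU.basicOpen _
    obtain ⟨K, hK⟩ := exists_pow_smul_eq_zero hM hWaff (resO (inf_le_left.trans (X.basicOpen_le _)) y)
      (resM M inf_le_left (t' a) - resM M inf_le_right (t' b)) (by
        have hle : X.basicOpen (resO (inf_le_left.trans (X.basicOpen_le _) : W ≤ U) y) ≤
            X.basicOpen y := (X.basicOpen_res y _).le.trans inf_le_right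
        rw [map_sub, resM_resM, resM_resM, ht' a _ _ hle, ht' b _ _ hle, sub_self])
    exact ⟨K, hK⟩
  choose K hK using comp
  let K₀ := (Finset.univ : Finset (F × F)).sup fun p => K p.1 p.2
  obtain ⟨s, hs⟩ := exists_glue_sections M (fun a : F => X.basicOpen (a : Γ(X, U)))
    (fun a => X.basicOpen_le _) (fun x hx => mem_of_span_eq_top hU hF hx)
    (fun a => resO (X.basicOpen_le (a : Γ(X, U))) y ^ K₀ • t' a) (fun a b => by
      simp only [resM_smul, map_pow, resO_resO]
      rw [← sub_eq_zero, ← smul_sub, ← Nat.sub_add_cancel (show K a b ≤ K₀ from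
        Finset.le_sup (f := fun p : F × F => K p.1 p.2) (Finset.mem_univ (a, b))), pow_add, mul_smul,
        hK a b, smul_zero])
  refine ⟨K₀ + N₀, s, ext_sections M (fun a : F => X.basicOpen y ⊓ X.basicOpen (a : Γ(X, U)))
    (fun a => inf_le_left) (fun x hx => (mem_of_span_eq_top hU hF (X.basicOpen_le y hx)).imp
      fun a ha => ⟨hx, ha⟩) fun a => ?_⟩
  have h1 := congrArg (resM M (inf_le_right : X.basicOpen y ⊓ X.basicOpen (a : Γ(X, U)) ≤ _)) (hs a)
  simp only [resM_smul, resM_resM, map_pow, resO_resO,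
    ht' a _ inf_le_right (inf_le_left : X.basicOpen y ⊓ X.basicOpen (a : Γ(X, U)) ≤ _)] at h1
  simp only [resM_smul, resM_resM, map_pow, resO_resO, h1, pow_add, mul_smul]

end Affine

end Fermat.Agent.Jac.Shf
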